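/-
S36lib / Count / NumericsSq  (helper5)

Pure arithmetic for brick B6 of project S36 (COUNT at level `M q²`): for a prime `q ∤ M` and a level
`M` WITHOUT elliptic points (`ν₂(M) = ν₃(M) = 0`),

  `g(M q²) - 1 = (q + 1) (g(M q) - g(M))`        (`ModularCurve.genusFormula`),

so that the level-`q` count `g(M q) + 1 ≤ 2 g(M) + s` gives `g(M q²) - 1 ≤ (q + 1)(g(M) + s - 1)`.
(For levels with elliptic points the last inequality is false in general.)
-/
import Mathlib
import Fermat.Prelude.Def_ModularCurve_GenusNumerics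
import Fermat.Agent.ProgramR.Counting.Psi
import Fermat.Agent.LSb.Count.Numerics

set_option autoImplicit false
set_option linter.style.haveILetI false

noncomputable section

namespace Fermat.Agent.S36lib.Count

open ModularCurve Fermat.Agent.LSb.Count

/-! ### `ν₂`, `ν₃` vanish at multiples -/

theorem nuTwo_eq_zero_of_dvd {M N : ℕ} [NeZero M] (h : M ∣ N) (h0 : nuTwo M = 0) :
    nuTwo N = 0 := by
  unfold nuTwo at h0 ⊢
  haveI : IsEmpty {x : ZMod M // x ^ 2 + 1 = 0} := by
    rcases Nat.card_eq_zero.mp h0 with h1 | h1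
    · exact h1
    · exact absurd (inferInstance : Finite {x : ZMod M // x ^ 2 + 1 = 0}) (not_finite_iff_infinite.mpr h1)
  haveI : IsEmpty {x : ZMod N // x ^ 2 + 1 = 0} := by
    refine ⟨fun x => IsEmpty.false (⟨ZMod.castHom h (ZMod M) x.1, ?_⟩ :
      {x : ZMod M // x ^ 2 + 1 = 0})⟩
    have := congrArg (ZMod.castHom h (ZMod M)) x.2
    rwa [map_add, map_pow, map_one, map_zero] at this
  exact Nat.card_of_isEmpty

theorem nuThree_eq_zero_of_dvd {M N : ℕ} [NeZero M] (h : M ∣ N) (h0 : nuThree M = 0) :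
    nuThree N = 0 := by
  unfold nuThree at h0 ⊢
  haveI : IsEmpty {x : ZMod M // x ^ 2 + x + 1 = 0} := by
    rcases Nat.card_eq_zero.mp h0 with h1 | h1
    · exact h1
    · exact absurd (inferInstance : Finite {x : ZMod M // x ^ 2 + x + 1 = 0})
        (not_finite_iff_infinite.mpr h1)
  haveI : IsEmpty {x : ZMod N // x ^ 2 + x + 1 = 0} := by
    refine ⟨fun x => IsEmpty.false (⟨ZMod.castHom h (ZMod M) x.1, ?_⟩ :
      {x : ZMod M // x ^ 2 + x + 1 = 0})⟩
    have := congrArg (ZMod.castHom h (ZMod M)) x.2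
    rwa [map_add, map_add, map_pow, map_one, map_zero] at this
  exact Nat.card_of_isEmpty

/-! ### The cusp count at level `M q²` -/

theorem cuspCount_mul_prime_sq {M q : ℕ} (hM : M ≠ 0) (hq : q.Prime) (hqM : ¬ q ∣ M) :
    cuspCount (M * q * q) = (q + 1) * cuspCount M := by
  unfold cuspCount
  have hq0 : 0 < q := hq.pos
  have hN : M * q * q ≠ 0 := mul_ne_zero (mul_ne_zero hM hq.ne_zero) hq.ne_zero
  have hcopM : ∀ d, d ∣ M → Nat.Coprime d q := fun d hd =>
    Nat.Coprime.symm ((Nat.Prime.coprime_iff_not_dvd hq).2 fun h => hqM (h.trans hd))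
  -- the three families of divisors
  have hdisj1 : Disjoint M.divisors (M.divisors.image (· * q)) := by
    rw [Finset.disjoint_left]
    intro d hd hd'
    rw [Finset.mem_image] at hd'
    obtain ⟨d', hd', rfl⟩ := hd'
    rw [Nat.mem_divisors] at hd
    exact hqM ((Dvd.intro_left d' rfl).trans hd.1)
  have hdisj2 : Disjoint (M.divisors ∪ M.divisors.image (· * q))
      (M.divisors.image (· * (q * q))) := by
    rw [Finset.disjoint_left]
    intro d hd hd'
    rw [Finset.mem_image] at hd'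
    obtain ⟨d', hd', rfl⟩ := hd'
    rw [Nat.mem_divisors] at hd'
    rw [Finset.mem_union, Finset.mem_image] at hd
    rcases hd with hd | ⟨d'', hd'', h⟩
    · rw [Nat.mem_divisors] at hd
      exact hqM (((Dvd.intro_left (d' * q) (by ring)) : q ∣ d' * (q * q)).trans hd.1)
    · rw [Nat.mem_divisors] at hd''
      have h1 : d'' = d' * q := by
        have : d'' * q = d' * q * q := by rw [h]; ring
        exact Nat.eq_of_mul_eq_mul_right hq0 this
      exact hqM (((Dvd.intro_left d' rfl) : q ∣ d' * q).trans (h1 ▸ hd''.1))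
  have hset : (M * q * q).divisors =
      (M.divisors ∪ M.divisors.image (· * q)) ∪ M.divisors.image (· * (q * q)) := by
    ext d
    simp only [Nat.mem_divisors, Finset.mem_union, Finset.mem_image]
    constructor
    · rintro ⟨hd, -⟩
      by_cases h1 : q ∣ d
      · obtain ⟨d1, rfl⟩ := h1
        have hd1 : d1 ∣ M * q := by
          have : q * d1 ∣ q * (M * q) := by
            have e : q * (M * q) = M * q * q := by ring
            rw [e]; exact hd
          exact (Nat.mul_dvd_mul_iff_left hq0).1 this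
        by_cases h2 : q ∣ d1
        · obtain ⟨d2, rfl⟩ := h2
          have hd2 : d2 ∣ M := by
            have : q * d2 ∣ q * M := by rwa [mul_comm q M]
            exact (Nat.mul_dvd_mul_iff_left hq0).1 this
          exact Or.inr ⟨d2, ⟨hd2, hM⟩, by ring⟩
        · have hcop : Nat.Coprime d1 q := Nat.Coprime.symm ((Nat.Prime.coprime_iff_not_dvd hq).2 h2)
          exact Or.inl (Or.inr ⟨d1, ⟨hcop.dvd_of_dvd_mul_right hd1, hM⟩, mul_comm _ _⟩)
      · have hcop : Nat.Coprime d q := Nat.Coprime.symm ((Nat.Prime.coprime_iff_not_dvd hq).2 h1)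
        have h2 : d ∣ M * q := hcop.dvd_of_dvd_mul_right hd
        exact Or.inl (Or.inl ⟨hcop.dvd_of_dvd_mul_right h2, hM⟩)
    · rintro ((⟨hd, -⟩ | ⟨d', ⟨hd', -⟩, rfl⟩) | ⟨d', ⟨hd', -⟩, rfl⟩)
      · exact ⟨(hd.mul_right q).mul_right q, hN⟩
      · exact ⟨Nat.mul_dvd_mul_right (hd'.mul_right q) q, hN⟩
      · refine ⟨?_, hN⟩
        have e : M * q * q = M * (q * q) := by ring
        rw [e]
        exact Nat.mul_dvd_mul_right hd' (q * q)
  rw [hset, Finset.sum_union hdisj2, Finset.sum_union hdisj1,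
    Finset.sum_image (fun a _ b _ hab => Nat.eq_of_mul_eq_mul_right hq0 hab),
    Finset.sum_image (fun a _ b _ hab => Nat.eq_of_mul_eq_mul_right (Nat.mul_pos hq0 hq0) hab)]
  have key : ∀ d ∈ M.divisors,
      Nat.totient (Nat.gcd d (M * q * q / d)) = Nat.totient (Nat.gcd d (M / d)) ∧
      Nat.totient (Nat.gcd (d * q) (M * q * q / (d * q))) =
        (q - 1) * Nat.totient (Nat.gcd d (M / d)) ∧
      Nat.totient (Nat.gcd (d * (q * q)) (M * q * q / (d * (q * q)))) =
        Nat.totient (Nat.gcd d (M / d)) := by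
    intro d hd
    rw [Nat.mem_divisors] at hd
    obtain ⟨e, he⟩ := hd.1
    have hd0 : 0 < d := Nat.pos_of_ne_zero (by rintro rfl; rw [zero_mul] at he; exact hM he)
    have hqd : Nat.Coprime d q := hcopM d hd.1
    have hqe : Nat.Coprime e q := hcopM e ⟨d, by rw [he, mul_comm]⟩
    have h4 : M / d = e := by rw [he]; exact Nat.mul_div_cancel_left _ hd0
    have h1 : M * q * q / d = e * q * q := by
      rw [he, mul_assoc, mul_assoc]
      rw [Nat.mul_div_cancel_left _ hd0, mul_assoc]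
    have h2 : M * q * q / (d * q) = e * q := by
      have : M * q * q = d * q * (e * q) := by rw [he]; ring
      rw [this, Nat.mul_div_cancel_left _ (Nat.mul_pos hd0 hq0)]
    have h3 : M * q * q / (d * (q * q)) = e := by
      have : M * q * q = d * (q * q) * e := by rw [he]; ring
      rw [this, Nat.mul_div_cancel_left _ (Nat.mul_pos hd0 (Nat.mul_pos hq0 hq0))]
    rw [h1, h2, h3, h4]
    refine ⟨?_, ?_, ?_⟩
    · congr 1
      rw [Nat.Coprime.gcd_mul_right_cancel_right _ hqd.symm,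
        Nat.Coprime.gcd_mul_right_cancel_right _ hqd.symm]
    · rw [Nat.gcd_mul_right, Nat.totient_mul, Nat.totient_prime hq, mul_comm]
      exact Nat.Coprime.coprime_dvd_left (Nat.gcd_dvd_left d e) hqd
    · congr 1
      rw [← mul_assoc, Nat.Coprime.gcd_mul_right_cancel _ hqe.symm,
        Nat.Coprime.gcd_mul_right_cancel _ hqe.symm]
  rw [Finset.sum_congr rfl fun d hd => (key d hd).1,
    Finset.sum_congr rfl fun d hd => (key d hd).2.1,
    Finset.sum_congr rfl fun d hd => (key d hd).2.2, ← Finset.mul_sum]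
  have hq1 : 1 ≤ q := hq0
  have : q + 1 = 1 + (q - 1) + 1 := by omega
  rw [this]
  ring

/-! ### The genus formula at level `M q²` -/

/-- **`g(M q²) - 1 = (q + 1)(g(M q) - g(M))` for a level `M` without elliptic points.** -/
theorem genusFormula_sq {M q : ℕ} [NeZero M] (hq : q.Prime) (hqM : ¬ q ∣ M)
    (h2 : nuTwo M = 0) (h3 : nuThree M = 0) :
    genusFormula (M * q * q) - 1 = ((q : ℚ) + 1) * (genusFormula (M * q) - genusFormula M) := by
  have hM : M ≠ 0 := NeZero.ne M
  have hMq : M * q ≠ 0 := mul_ne_zero hM hq.ne_zero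
  have hψ1 := Fermat.Agent.ProgramR.dedekindPsi_mul_prime_of_not_dvd hM hq hqM
  have hψ2 := Fermat.Agent.ProgramR.dedekindPsi_mul_prime_of_dvd hMq hq (Dvd.intro_left M rfl)
  have hc1 := cuspCount_mul_prime_of_not_dvd hM hq hqM
  have hc2 := cuspCount_mul_prime_sq hM hq hqM
  have h21 := nuTwo_eq_zero_of_dvd (Dvd.intro (q) rfl : M ∣ M * q) h2
  have h22 := nuTwo_eq_zero_of_dvd (Dvd.intro (q * q) (by ring) : M ∣ M * q * q) h2
  have h31 := nuThree_eq_zero_of_dvd (Dvd.intro (q) rfl : M ∣ M * q) h3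
  have h32 := nuThree_eq_zero_of_dvd (Dvd.intro (q * q) (by ring) : M ∣ M * q * q) h3
  unfold genusFormula
  rw [hψ2, hψ1, hc1, hc2, h2, h3, h21, h22, h31, h32]
  push_cast
  ring

/-- **The arithmetic of COUNT at level `M q²`**: the level-`q` count
`g(M q) + 1 ≤ 2 g(M) + s` gives `g(M q²) + q ≤ (q + 1)(g(M) + s)`
(i.e. `g(M q²) - 1 ≤ (q + 1)(g(M) + s - 1)`), for `M` without elliptic points. -/
theorem count_sq_numerics {M q : ℕ} [NeZero M] (hq : q.Prime) (hqM : ¬ q ∣ M)
    (h2 : nuTwo M = 0) (h3 : nuThree M = 0) {g2 g1 g0 s : ℕ}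
    (hg2 : (g2 : ℚ) = genusFormula (M * q * q)) (hg1 : (g1 : ℚ) = genusFormula (M * q))
    (hg0 : (g0 : ℚ) = genusFormula M) (hcount : g1 + 1 ≤ 2 * g0 + s) :
    g2 + q ≤ (q + 1) * (g0 + s) := by
  have h := genusFormula_sq hq hqM h2 h3
  rw [← hg2, ← hg1, ← hg0] at h
  have hc : (g1 : ℚ) + 1 ≤ 2 * g0 + s := by exact_mod_cast hcount
  have hq0 : (0 : ℚ) ≤ (q : ℚ) + 1 := by positivity
  have goal : (g2 : ℚ) + q ≤ ((q : ℚ) + 1) * (g0 + s) := by
    have h1 : (g2 : ℚ) = ((q : ℚ) + 1) * (g1 - g0) + 1 := by linarith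
    rw [h1]
    nlinarith
  exact_mod_cast goal

/-- the exact form: `g(M q²) + q = (q + 1)(g(M) + s)` if `g(M q) + 1 = 2 g(M) + s`. -/
theorem count_sq_numerics_eq {M q : ℕ} [NeZero M] (hq : q.Prime) (hqM : ¬ q ∣ M)
    (h2 : nuTwo M = 0) (h3 : nuThree M = 0) {g2 g1 g0 s : ℕ}
    (hg2 : (g2 : ℚ) = genusFormula (M * q * q)) (hg1 : (g1 : ℚ) = genusFormula (M * q))
    (hg0 : (g0 : ℚ) = genusFormula M) (hcount : g1 + 1 = 2 * g0 + s) :
    g2 + q = (q + 1) * (g0 + s) := by
  have h := genusFormula_sq hq hqM h2 h3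
  rw [← hg2, ← hg1, ← hg0] at h
  have hc : (g1 : ℚ) + 1 = 2 * g0 + s := by exact_mod_cast hcount
  have goal : (g2 : ℚ) + q = ((q : ℚ) + 1) * (g0 + s) := by
    have h1 : (g1 : ℚ) = 2 * g0 + s - 1 := by linarith
    rw [h1] at h
    linarith
  exact_mod_cast goal

end Fermat.Agent.S36lib.Count
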