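/-
S36lib / Count / MainSq  (helper5)

**Brick B6 of project S36 (COUNT at level `M q²`).**  `q` prime, `q ∤ M`, `M` a level without
elliptic points (`ν₂(M) = ν₃(M) = 0`).  If `s` satisfies the level-`q` count
`g(X₀(M q)) + 1 ≤ 2 g(X₀(M)) + s` (LSb: `s` = number of supersingular points of `X₀(M)` in
characteristic `q` = number of nodes of the fibre of `X₀(M q)` = number of triple points of the
fibre `Z₂₀ + (q-1) Z₁₁ + Z₀₂` of `X₀(M q²)`), then

  `g(X₀(M q²)) + q ≤ (q + 1) (g(X₀(M)) + s)`,     i.e.  `g₂ - 1 ≤ (q + 1)(g₀ + s - 1)`.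
-/
import Mathlib
import Fermat.Agent.S36lib.Count.NumericsSq
import Fermat.Agent.LSb.Count.Main

set_option autoImplicit false
set_option linter.style.haveILetI false
set_option linter.unusedSectionVars false

noncomputable section

namespace Fermat.Agent.S36lib.Count

open AlgebraicCurve ModularCurve Polynomial
open Fermat.Agent.ProgramR Fermat.Agent.S18lib Fermat.Agent.S28lib Fermat.Agent.LSb.Count

local notation "Qb" => AlgebraicClosure ℚ

variable (M : ℕ) [NeZero M] {q : ℕ} [Fact q.Prime]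

/-- the genus of `FBar N` is given by the genus formula -/
theorem genus_FBar_eq_genusFormula (N : ℕ) [NeZero N] {g : ℕ}
    (hg : IsCurveOfGenus Qb (FBar N) g) : (g : ℚ) = genusFormula N := by
  obtain ⟨g', hF', hRH'⟩ := Gin0.exists_isCurveOfGenus_FBar N
  rw [RRgen.Canonical.genus_unique hg hF']
  exact Gin0.genus_eq_genusFormula N hRH'

/-- **COUNT at level `M q²`, characteristic-zero genera**, from the level-`q` count. -/
theorem count_sq [NeZero (M * q)] [NeZero (M * q * q)] (hqM : ¬ q ∣ M)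
    (h2 : nuTwo M = 0) (h3 : nuThree M = 0) {g2 g1 g0 s : ℕ}
    (hF2 : IsCurveOfGenus Qb (FBar (M * q * q)) g2) (hF1 : IsCurveOfGenus Qb (FBar (M * q)) g1)
    (hF0 : IsCurveOfGenus Qb (FBar M) g0) (hcount : g1 + 1 ≤ 2 * g0 + s) :
    g2 + q ≤ (q + 1) * (g0 + s) :=
  count_sq_numerics Fact.out hqM h2 h3 (genus_FBar_eq_genusFormula _ hF2)
    (genus_FBar_eq_genusFormula _ hF1) (genus_FBar_eq_genusFormula _ hF0) hcount

/-- the exact form of `count_sq` -/
theorem count_sq_eq [NeZero (M * q)] [NeZero (M * q * q)] (hqM : ¬ q ∣ M)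
    (h2 : nuTwo M = 0) (h3 : nuThree M = 0) {g2 g1 g0 s : ℕ}
    (hF2 : IsCurveOfGenus Qb (FBar (M * q * q)) g2) (hF1 : IsCurveOfGenus Qb (FBar (M * q)) g1)
    (hF0 : IsCurveOfGenus Qb (FBar M) g0) (hcount : g1 + 1 = 2 * g0 + s) :
    g2 + q = (q + 1) * (g0 + s) :=
  count_sq_numerics_eq Fact.out hqM h2 h3 (genus_FBar_eq_genusFormula _ hF2)
    (genus_FBar_eq_genusFormula _ hF1) (genus_FBar_eq_genusFormula _ hF0) hcount

variable (A : ValuationSubring (AlgebraicClosure ℚ))

/-- **COUNT at level `M q²`, `q ≥ 5`**: `T` any finite set of places of `X₀(M)_k` containing the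
zeros of `h = Δ̄^(1-q)` at which `j̄` is regular (the supersingular points); genus of the
characteristic-`q` curve `X₀(M)_k` on the right. -/
theorem count_sq_five_le_set [NeZero (M * q)] [NeZero (M * q * q)] (h5 : 5 ≤ q) (hqM : ¬ q ∣ M)
    (hA : A.LiesOverPrime q) (h2 : nuTwo M = 0) (h3 : nuThree M = 0)
    (h : FRes A M)
    (hh : ((h : FRes A M) : LaurentSeries (kRes A)) * DeltaQ (kRes A) ^ (q - 1) = 1)
    (T : Set (Place (kRes A) (FRes A M))) (hT : T.Finite)
    (hsub : ∀ v : Place (kRes A) (FRes A M), Gink.jK A M ∈ v.toValuationSubring →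
      0 < v.ord h → v ∈ T)
    {g2 gk : ℕ} (hF2 : IsCurveOfGenus Qb (FBar (M * q * q)) g2)
    (hFk : IsCurveOfGenus (kRes A) (FRes A M) gk) :
    g2 + q ≤ (q + 1) * (gk + Nat.card T) := by
  obtain ⟨g0, hF0, hFk'⟩ := G.exists_genus_of_five_le M A hqM hA
    (S37lib.B3.reductionInputsModL M A hqM hA) h5
  rw [RRgen.Canonical.genus_unique hFk hFk']
  obtain ⟨g1, hF1, -⟩ := Gin0.exists_isCurveOfGenus_FBar (M * q)
  have hc := (count_five_le_set M A h5 hqM hA h hh T hT hsub hF1 hF0).1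
  exact count_sq M hqM h2 h3 hF2 hF1 hF0 hc

/-- **COUNT at level `M q²`, `q ≥ 5`**, with `s` = the number of zeros of `h`. -/
theorem count_sq_five_le [NeZero (M * q)] [NeZero (M * q * q)] (h5 : 5 ≤ q) (hqM : ¬ q ∣ M)
    (hA : A.LiesOverPrime q) (h2 : nuTwo M = 0) (h3 : nuThree M = 0)
    (h : FRes A M)
    (hh : ((h : FRes A M) : LaurentSeries (kRes A)) * DeltaQ (kRes A) ^ (q - 1) = 1)
    {g2 gk : ℕ} (hF2 : IsCurveOfGenus Qb (FBar (M * q * q)) g2)
    (hFk : IsCurveOfGenus (kRes A) (FRes A M) gk) :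
    g2 + q ≤ (q + 1) * (gk + Nat.card (Tame.zerosOf (K := kRes A) h)) := by
  letI := hFk.hasPrincipalDivisors
  exact count_sq_five_le_set M A h5 hqM hA h2 h3 h hh _ (Tame.finite_zerosOf _)
    (fun v _ hv => hv) hF2 hFk

end Fermat.Agent.S36lib.Count
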