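/-
S36lib / Count / ModSq  (helper5)

**Brick B6 of project S36 (COUNT at level `M q²`) in the shape of the modular nodal datum**:
with `D1 : GaussDatum A (FBar (M q)) (FRes A M)` the level-`M q` Gauss datum (`Old.IsGaussOne`) and
`s = Unit.modS D1` its number of nodes (= number of supersingular points of `X₀(M)` in
characteristic `q` = number of triple points of the thick fibre `Z₂₀ + (q-1) Z₁₁ + Z₀₂` of
`X₀(M q²)`), and `gM` the genus of the characteristic-`q` curve `FRes A M`: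

  `g(X₀(M q²)) + q ≤ (q + 1) (gM + s)`,

i.e. `g + e + 1 ≤ g₁ + e g₂ + g₃ + s (e + 2)` with `e = q - 1`, `g₁ = g₂ = g₃ = gM`.

* `count_sq_mod_five_le` : `q ≥ 5`, `M` without elliptic points (`ν₂(M) = ν₃(M) = 0`);
* `count_sq_mod_two`     : `q = 2`, `9 ∣ M`, `2 ∤ M`;
* `count_sq_mod_three`   : `q = 3`, `4 ∣ M`, `3 ∤ M`;
all three are in fact equalities (`…_eq` for `q = 2, 3`).
-/
import Mathlib
import Fermat.Agent.S36lib.Count.MainSq
import Fermat.Agent.LSb.Unit.CountAdapter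
import Fermat.Agent.LSb.Count23.Two
import Fermat.Agent.LSb.Count23.Three

set_option autoImplicit false
set_option linter.style.haveILetI false
set_option linter.unusedSectionVars false

noncomputable section

namespace Fermat.Agent.S36lib.Count

open AlgebraicCurve ModularCurve
open Fermat.Agent.ProgramR Fermat.Agent.S18lib Fermat.Agent.S28lib Fermat.Agent.LSb

local notation "Qb" => AlgebraicClosure ℚ

/-! ### small levels without elliptic points -/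

theorem nuTwo_three : nuTwo 3 = 0 := by
  unfold nuTwo
  rw [Nat.card_eq_fintype_card]
  decide

theorem nuTwo_four : nuTwo 4 = 0 := by
  unfold nuTwo
  rw [Nat.card_eq_fintype_card]
  decide

theorem nuThree_two : nuThree 2 = 0 := by
  unfold nuThree
  rw [Nat.card_eq_fintype_card]
  decide

theorem nuThree_nine : nuThree 9 = 0 := by
  unfold nuThree
  rw [Nat.card_eq_fintype_card]
  decide

/-- `9 ∣ M` ⇒ no elliptic points of order `2` (as `3 ∣ M`) -/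
theorem nuTwo_eq_zero_of_nine_dvd {M : ℕ} (h9 : 9 ∣ M) : nuTwo M = 0 :=
  nuTwo_eq_zero_of_dvd (M := 3) (Dvd.dvd.trans (by norm_num) h9) nuTwo_three

/-- `9 ∣ M` ⇒ no elliptic points of order `3` -/
theorem nuThree_eq_zero_of_nine_dvd {M : ℕ} (h9 : 9 ∣ M) : nuThree M = 0 :=
  nuThree_eq_zero_of_dvd (M := 9) h9 nuThree_nine

/-- `4 ∣ M` ⇒ no elliptic points of order `2` -/
theorem nuTwo_eq_zero_of_four_dvd {M : ℕ} (h4 : 4 ∣ M) : nuTwo M = 0 :=
  nuTwo_eq_zero_of_dvd (M := 4) h4 nuTwo_four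

/-- `4 ∣ M` ⇒ no elliptic points of order `3` (as `2 ∣ M`) -/
theorem nuThree_eq_zero_of_four_dvd {M : ℕ} (h4 : 4 ∣ M) : nuThree M = 0 :=
  nuThree_eq_zero_of_dvd (M := 2) (Dvd.dvd.trans (by norm_num) h4) nuThree_two

variable {M : ℕ} [NeZero M] {A : ValuationSubring (AlgebraicClosure ℚ)}

local notation "kA" => IsLocalRing.ResidueField A

/-- **COUNT at level `M q²`, `q ≥ 5`, modular shape.** -/
theorem count_sq_mod_five_le {q : ℕ} [NeZero q] [Fact q.Prime] [NeZero (M * q * q)]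
    (h5 : 5 ≤ q) (hqM : ¬ q ∣ M) (hA : A.LiesOverPrime q)
    (h2 : nuTwo M = 0) (h3 : nuThree M = 0)
    {D1 : GaussDatum A (FBar (M * q)) (FRes A M)} (h1 : Old.IsGaussOne D1)
    {g2 gM : ℕ} (hF2 : IsCurveOfGenus Qb (FBar (M * q * q)) g2)
    (hFk : IsCurveOfGenus kA (FRes A M) gM) :
    g2 + q ≤ (q + 1) * (gM + Unit.modS D1) := by
  haveI : NeZero (M * q) := ⟨Nat.mul_ne_zero (NeZero.ne M) (NeZero.ne q)⟩
  obtain ⟨g0, hF0, hFk'⟩ := G.exists_genus_of_five_le M A hqM hA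
    (S37lib.B3.reductionInputsModL M A hqM hA) h5
  obtain rfl : gM = g0 := RRgen.Canonical.genus_unique hFk hFk'
  obtain ⟨g1, hF1, -⟩ := Gin0.exists_isCurveOfGenus_FBar (M * q)
  have hc := Unit.mod_count_five_le h5 hqM hA h1 hF1 hFk
  exact count_sq M hqM h2 h3 hF2 hF1 hF0 (by omega)

/-- **COUNT at level `M q²`, `q = 2`, `9 ∣ M`, modular shape** (equality). -/
theorem count_sq_mod_two_eq [NeZero (M * 2 * 2)] (h9 : 9 ∣ M) (h2M : ¬ 2 ∣ M)
    (hA : A.LiesOverPrime 2)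
    {D1 : GaussDatum A (FBar (M * 2)) (FRes A M)} (h1 : Old.IsGaussOne D1)
    {g2 gM : ℕ} (hF2 : IsCurveOfGenus Qb (FBar (M * 2 * 2)) g2)
    (hFk : IsCurveOfGenus kA (FRes A M) gM) :
    g2 + 2 = (2 + 1) * (gM + Unit.modS D1) := by
  haveI : Fact (Nat.Prime 2) := ⟨Nat.prime_two⟩
  haveI : NeZero (M * 2) := ⟨Nat.mul_ne_zero (NeZero.ne M) two_ne_zero⟩
  obtain ⟨g0, hF0, hFk'⟩ := Mod23.exists_genus_nine M A rfl h2M hA h9
  obtain rfl : gM = g0 := RRgen.Canonical.genus_unique hFk hFk'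
  obtain ⟨g1, hF1, -⟩ := Gin0.exists_isCurveOfGenus_FBar (M * 2)
  have hc := Count23.count_two_eq h9 h2M hA h1 hF1 hFk
  exact count_sq_eq M (q := 2) h2M (nuTwo_eq_zero_of_nine_dvd h9) (nuThree_eq_zero_of_nine_dvd h9)
    hF2 hF1 hF0 (by omega)

/-- **COUNT at level `M q²`, `q = 2`, `9 ∣ M`, modular shape.** -/
theorem count_sq_mod_two [NeZero (M * 2 * 2)] (h9 : 9 ∣ M) (h2M : ¬ 2 ∣ M)
    (hA : A.LiesOverPrime 2)
    {D1 : GaussDatum A (FBar (M * 2)) (FRes A M)} (h1 : Old.IsGaussOne D1)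
    {g2 gM : ℕ} (hF2 : IsCurveOfGenus Qb (FBar (M * 2 * 2)) g2)
    (hFk : IsCurveOfGenus kA (FRes A M) gM) :
    g2 + 2 ≤ (2 + 1) * (gM + Unit.modS D1) :=
  (count_sq_mod_two_eq h9 h2M hA h1 hF2 hFk).le

/-- **COUNT at level `M q²`, `q = 3`, `4 ∣ M`, modular shape** (equality). -/
theorem count_sq_mod_three_eq [NeZero (M * 3 * 3)] (h4 : 4 ∣ M) (h3M : ¬ 3 ∣ M)
    (hA : A.LiesOverPrime 3)
    {D1 : GaussDatum A (FBar (M * 3)) (FRes A M)} (h1 : Old.IsGaussOne D1)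
    {g2 gM : ℕ} (hF2 : IsCurveOfGenus Qb (FBar (M * 3 * 3)) g2)
    (hFk : IsCurveOfGenus kA (FRes A M) gM) :
    g2 + 3 = (3 + 1) * (gM + Unit.modS D1) := by
  haveI : Fact (Nat.Prime 3) := ⟨Nat.prime_three⟩
  haveI : NeZero (M * 3) := ⟨Nat.mul_ne_zero (NeZero.ne M) three_ne_zero⟩
  obtain ⟨g0, hF0, hFk'⟩ := Mod23.exists_genus_four M A rfl h3M hA h4
  obtain rfl : gM = g0 := RRgen.Canonical.genus_unique hFk hFk'
  obtain ⟨g1, hF1, -⟩ := Gin0.exists_isCurveOfGenus_FBar (M * 3)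
  have hc := Count23.count_three_eq h4 h3M hA h1 hF1 hFk
  exact count_sq_eq M (q := 3) h3M (nuTwo_eq_zero_of_four_dvd h4) (nuThree_eq_zero_of_four_dvd h4)
    hF2 hF1 hF0 (by omega)

/-- **COUNT at level `M q²`, `q = 3`, `4 ∣ M`, modular shape.** -/
theorem count_sq_mod_three [NeZero (M * 3 * 3)] (h4 : 4 ∣ M) (h3M : ¬ 3 ∣ M)
    (hA : A.LiesOverPrime 3)
    {D1 : GaussDatum A (FBar (M * 3)) (FRes A M)} (h1 : Old.IsGaussOne D1)
    {g2 gM : ℕ} (hF2 : IsCurveOfGenus Qb (FBar (M * 3 * 3)) g2)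
    (hFk : IsCurveOfGenus kA (FRes A M) gM) :
    g2 + 3 ≤ (3 + 1) * (gM + Unit.modS D1) :=
  (count_sq_mod_three_eq h4 h3M hA h1 hF2 hFk).le

end Fermat.Agent.S36lib.Count
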