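/-
S36lib / Count / OrdFibre  (helper5)

Ramification of `j : X₀(N) → ℙ¹` at levels WITHOUT elliptic points, in characteristic `0` and in
characteristic `ℓ ≥ 5`, `ℓ ∤ N`:
* `ord_jF_eq_three` / `ord_jK_eq_three` : `ν₃(N) = 0` ⇒ every zero of `j` has order exactly `3`;
* `ord_jF_sub_eq_two` / `ord_jK_sub_eq_two` : `ν₂(N) = 0` ⇒ every zero of `j - 1728` has order `2`;
* `ord_jK_sub_eq_one` : zeros of `j̄ - b`, `b ≠ 0, 1728`, are simple.
-/
import Mathlib
import Fermat.Agent.S36lib.Count.OrdGen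
import Fermat.Agent.LSb.Count.Fibre

set_option autoImplicit false
set_option linter.style.haveILetI false
set_option linter.unusedSectionVars false

noncomputable section

namespace Fermat.Agent.S36lib.Count

open AlgebraicCurve ModularCurve IntermediateField Polynomial Module
open Fermat.Agent.ProgramR Fermat.Agent.ProgramR.RR Fermat.Agent.S18lib Fermat.Agent.LSb

local notation "Qb" => AlgebraicClosure ℚ

variable (N : ℕ) [NeZero N]

/-! ### characteristic zero -/

/-- `ν₃(N) = 0` ⇒ `j` is ramified of index exactly `3` over `j = 0` (characteristic `0`) -/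
theorem ord_jF_eq_three (h3 : nuThree N = 0) (P : Place Qb (FBar N))
    (hP : 0 < P.ord (Gin0.jF N)) : P.ord (Gin0.jF N) = 3 := by
  obtain ⟨g, hF, -⟩ := Gin0.exists_isCurveOfGenus_FBar N
  letI := hF.hasPrincipalDivisors
  refine ord_eq_of_ord_le (n := 3) hF.deg_eq_one (fun v hv => ?_) ?_ P hP
  · exact Int.le_of_dvd (by norm_num) (Gin0.ord_dvd_three N v hv)
  · rw [Tame.degree_zeroDiv, Gin0.degree_poleDiv_jF N]
    have h := Gin0.three_mul_card_fibre_jF_zero N
    rw [h3, mul_zero, add_zero] at h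
    have e : RHLocal.fibre (K := Qb) (Gin0.jF N) (0 : Qb) = Tame.zerosOf (K := Qb) (Gin0.jF N) := by
      ext v
      show 0 < v.ord (Gin0.jF N - algebraMap Qb (FBar N) 0) ↔ 0 < v.ord (Gin0.jF N)
      rw [map_zero, sub_zero]
    rw [e] at h
    exact_mod_cast h

/-- `ν₂(N) = 0` ⇒ `j` is ramified of index exactly `2` over `j = 1728` (characteristic `0`) -/
theorem ord_jF_sub_eq_two (h2 : nuTwo N = 0) (P : Place Qb (FBar N))
    (hP : 0 < P.ord (Gin0.jF N - algebraMap Qb (FBar N) 1728)) :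
    P.ord (Gin0.jF N - algebraMap Qb (FBar N) 1728) = 2 := by
  obtain ⟨g, hF, -⟩ := Gin0.exists_isCurveOfGenus_FBar N
  letI := hF.hasPrincipalDivisors
  have hne : Gin0.jF N - algebraMap Qb (FBar N) 1728 ≠ 0 := by
    intro h0
    rw [h0, Place.ord_zero] at hP
    exact lt_irrefl _ hP
  refine ord_eq_of_ord_le (n := 2) hF.deg_eq_one (fun v hv => ?_) ?_ P hP
  · exact Int.le_of_dvd (by norm_num) (Gin0.ord_sub_dvd_two N v hv)
  · rw [Tame.degree_zeroDiv, Tame.poleDiv_sub_const _ _ hne, Gin0.degree_poleDiv_jF N]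
    have h := Gin0.two_mul_card_fibre_jF_1728 N
    rw [h2, add_zero] at h
    have e : RHLocal.fibre (K := Qb) (Gin0.jF N) (1728 : Qb) =
        Tame.zerosOf (K := Qb) (Gin0.jF N - algebraMap Qb (FBar N) 1728) := rfl
    rw [e] at h
    exact_mod_cast h

/-! ### characteristic `ℓ ≥ 5` -/

variable {ℓ : ℕ} [Fact ℓ.Prime] (A : ValuationSubring (AlgebraicClosure ℚ))

/-- **lower bounds for ramification indices specialise**: if every zero of `j - a` has order `≥ n`
then so has every zero of `j̄ - ā` (`a ∈ A`). -/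
theorem le_ord_jK_sub (hℓN : ¬ ℓ ∣ N) (hA : A.LiesOverPrime ℓ) (h5 : 5 ≤ ℓ) (a : A) (n : ℤ)
    (hn : ∀ P : Place Qb (FBar N), 0 < P.ord (Gin0.jF N - algebraMap Qb (FBar N) ((a : A) : Qb)) →
      n ≤ P.ord (Gin0.jF N - algebraMap Qb (FBar N) ((a : A) : Qb)))
    (v : Place (kRes A) (FRes A N))
    (hv : 0 < v.ord (Gink.jK A N - algebraMap (kRes A) (FRes A N) (IsLocalRing.residue A a))) :
    n ≤ v.ord (Gink.jK A N - algebraMap (kRes A) (FRes A N) (IsLocalRing.residue A a)) := by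
  classical
  have h := S37lib.B3.reductionInputsModL N A hℓN hA
  obtain ⟨g', hF, hFk⟩ := G.exists_genus_of_five_le N A hℓN hA h h5
  have hx : Transcendental (kRes A) (Gink.jK A N) := Gink.transcendental_jK A N
  haveI : Algebra.IsSeparable (kRes A)⟮Gink.jK A N⟯ (FRes A N) := Gink.isSeparable_jK A N hA hℓN
  letI := hF.hasPrincipalDivisors
  letI := hFk.hasPrincipalDivisors
  set D := V.datum N A hℓN hA h with hD
  have hyO : Gin0.jF N ∈ D.O := G.jF_mem_datum_O N A hℓN hA h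
  have hred : D.redF (Gin0.jF N) = Gink.jK A N := G.datum_redF_jF N A hℓN hA h
  have hpres : Divisor.degree (Tame.poleDiv (K := Qb) (Gin0.jF N)) =
      Divisor.degree (Tame.poleDiv (K := kRes A) (D.redF (Gin0.jF N))) := by
    rw [hred, Gin0.degree_poleDiv_jF N, G.degree_poleDiv_of_transcendental (kRes A) hx,
      Gink.finrank_jK A N hA hℓN]
  have hnc : D.redF (Gin0.jF N) ≠ algebraMap (kRes A) (FRes A N) (IsLocalRing.residue A a) := by
    intro hc
    rw [hred] at hc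
    exact hx (hc ▸ isAlgebraic_algebraMap _)
  have hdeg : ∀ Q : Place (kRes A) (FRes A N), 0 < Q.deg := fun Q => by
    rw [hFk.deg_eq_one]; exact one_pos
  have hv' : 0 < v.ord (D.redF (Gin0.jF N) -
      algebraMap (kRes A) (FRes A N) (IsLocalRing.residue A a)) := by rw [hred]; exact hv
  obtain ⟨P₀, hP₀v, hP₀⟩ := Tame.exists_ord_pos_of_ord_pos D hdeg hyO hpres a hnc hv'
  have hsum := Tame.ord_eq_sum_ord D hdeg hyO hpres a hnc P₀
  rw [hP₀v, hred, max_eq_left hv.le] at hsum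
  rw [hsum]
  have hmem : P₀ ∈ (Tame.zeroDiv (K := Qb)
      (Gin0.jF N - algebraMap Qb (FBar N) ((a : A) : Qb))).support.filter
        (fun P => D.r P = v) := by
    rw [Finset.mem_filter]
    exact ⟨Tame.mem_support_zeroDiv.mpr hP₀, hP₀v⟩
  calc n ≤ P₀.ord (Gin0.jF N - algebraMap Qb (FBar N) ((a : A) : Qb)) := hn P₀ hP₀
    _ ≤ _ := Finset.single_le_sum (f := fun P : Place Qb (FBar N) =>
        P.ord (Gin0.jF N - algebraMap Qb (FBar N) ((a : A) : Qb)))
      (fun P hP => (Tame.mem_support_zeroDiv.mp (Finset.mem_filter.mp hP).1).le) hmem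

/-- the degree of the zero divisor of `j̄ - b` is `ψ(N)` -/
theorem degree_zeroDiv_jK_sub (hℓN : ¬ ℓ ∣ N) (hA : A.LiesOverPrime ℓ) (b : kRes A)
    [HasPrincipalDivisors (kRes A) (FRes A N)] :
    Divisor.degree (Tame.zeroDiv (K := kRes A)
      (Gink.jK A N - algebraMap (kRes A) (FRes A N) b)) = (dedekindPsi N : ℤ) := by
  have hx : Transcendental (kRes A) (Gink.jK A N) := Gink.transcendental_jK A N
  haveI : Algebra.IsSeparable (kRes A)⟮Gink.jK A N⟯ (FRes A N) := Gink.isSeparable_jK A N hA hℓN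
  have hne : Gink.jK A N - algebraMap (kRes A) (FRes A N) b ≠ 0 := by
    intro h0
    exact hx (sub_eq_zero.mp h0 ▸ isAlgebraic_algebraMap _)
  rw [Tame.degree_zeroDiv, Tame.poleDiv_sub_const _ _ hne,
    G.degree_poleDiv_of_transcendental (kRes A) hx, Gink.finrank_jK A N hA hℓN]

/-- `ν₃(N) = 0` ⇒ every zero of `j̄` has order exactly `3` (characteristic `ℓ ≥ 5`) -/
theorem ord_jK_eq_three (hℓN : ¬ ℓ ∣ N) (hA : A.LiesOverPrime ℓ) (h5 : 5 ≤ ℓ)
    (h3 : nuThree N = 0) (v : Place (kRes A) (FRes A N)) (hv : 0 < v.ord (Gink.jK A N)) :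
    v.ord (Gink.jK A N) = 3 := by
  have h := S37lib.B3.reductionInputsModL N A hℓN hA
  obtain ⟨g', hF, hFk⟩ := G.exists_genus_of_five_le N A hℓN hA h h5
  letI := hFk.hasPrincipalDivisors
  have e0 : ((0 : A) : Qb) = 0 := rfl
  have key : ∀ w : Place (kRes A) (FRes A N), 0 < w.ord (Gink.jK A N) →
      (3 : ℤ) ≤ w.ord (Gink.jK A N) := by
    intro w hw
    have := le_ord_jK_sub N A hℓN hA h5 0 3 (fun P hP => by
      rw [e0, map_zero, sub_zero] at hP ⊢
      exact (ord_jF_eq_three N h3 P hP).ge) w (by rw [map_zero, map_zero, sub_zero]; exact hw)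
    rwa [map_zero, map_zero, sub_zero] at this
  refine ord_eq_of_le_ord (n := 3) hFk.deg_eq_one key ?_ v hv
  have hd := degree_zeroDiv_jK_sub N A hℓN hA 0
  rw [map_zero, sub_zero] at hd
  rw [hd]
  have hc := LSb.Count.three_mul_card_zerosOf_jK N A hℓN hA h5
  rw [h3, mul_zero, add_zero] at hc
  exact_mod_cast hc

/-- `ν₂(N) = 0` ⇒ every zero of `j̄ - 1728` has order exactly `2` (characteristic `ℓ ≥ 5`) -/
theorem ord_jK_sub_eq_two (hℓN : ¬ ℓ ∣ N) (hA : A.LiesOverPrime ℓ) (h5 : 5 ≤ ℓ)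
    (h2 : nuTwo N = 0) (v : Place (kRes A) (FRes A N))
    (hv : 0 < v.ord (Gink.jK A N - algebraMap (kRes A) (FRes A N) 1728)) :
    v.ord (Gink.jK A N - algebraMap (kRes A) (FRes A N) 1728) = 2 := by
  have h := S37lib.B3.reductionInputsModL N A hℓN hA
  obtain ⟨g', hF, hFk⟩ := G.exists_genus_of_five_le N A hℓN hA h h5
  letI := hFk.hasPrincipalDivisors
  have hres : IsLocalRing.residue A (1728 : A) = 1728 := map_ofNat _ _
  have e1 : ((1728 : A) : Qb) = 1728 := rfl
  have key : ∀ w : Place (kRes A) (FRes A N),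
      0 < w.ord (Gink.jK A N - algebraMap (kRes A) (FRes A N) 1728) →
      (2 : ℤ) ≤ w.ord (Gink.jK A N - algebraMap (kRes A) (FRes A N) 1728) := by
    intro w hw
    have := le_ord_jK_sub N A hℓN hA h5 1728 2 (fun P hP => by
      rw [e1] at hP ⊢
      exact (ord_jF_sub_eq_two N h2 P hP).ge) w (by rw [hres]; exact hw)
    rwa [hres] at this
  refine ord_eq_of_le_ord (n := 2) hFk.deg_eq_one key ?_ v hv
  rw [degree_zeroDiv_jK_sub N A hℓN hA 1728]
  have hc := LSb.Count.two_mul_card_zerosOf_jK_sub N A hℓN hA h5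
  rw [h2, add_zero] at hc
  exact_mod_cast hc

/-- zeros of `j̄ - b`, `b ≠ 0, 1728`, are simple (characteristic `ℓ ≥ 5`) -/
theorem ord_jK_sub_eq_one (hℓN : ¬ ℓ ∣ N) (hA : A.LiesOverPrime ℓ) (h5 : 5 ≤ ℓ) (b : kRes A)
    (hb0 : b ≠ 0) (hb1 : b ≠ 1728) (v : Place (kRes A) (FRes A N))
    (hv : 0 < v.ord (Gink.jK A N - algebraMap (kRes A) (FRes A N) b)) :
    v.ord (Gink.jK A N - algebraMap (kRes A) (FRes A N) b) = 1 := by
  have h := S37lib.B3.reductionInputsModL N A hℓN hA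
  obtain ⟨g', hF, hFk⟩ := G.exists_genus_of_five_le N A hℓN hA h h5
  letI := hFk.hasPrincipalDivisors
  refine ord_eq_of_le_ord (n := 1) hFk.deg_eq_one (fun w hw => hw) ?_ v hv
  rw [degree_zeroDiv_jK_sub N A hℓN hA b, one_mul,
    LSb.Count.card_zerosOf_jK_sub N A hℓN hA h5 b hb0 hb1]

end Fermat.Agent.S36lib.Count
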