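/-
S36lib / Count / OrdTwelve  (helper5)

**`a_c = 12`: at a level `M` without elliptic points, the function `H₂ = Δ̄^(1-q)` (the reduction of
the modular unit `Δ(τ)/Δ(qτ)`) has a zero of order EXACTLY `12` at every supersingular point of
`X₀(M)_k`** (= node of the fibre of `X₀(M q)` = triple point of the fibre of `X₀(M q²)`).

* `ord_eq_twelve_five_le` : `q ≥ 5`, `ν₂(M) = ν₃(M) = 0`, any `h` with `h · Δ̄^(q-1) = 1`;
* `ord_H₂_eq_twelve_five_le`, `ord_H₂_eq_twelve_two` (`9 ∣ M`), `ord_H₂_eq_twelve_three` (`4 ∣ M`):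
  the same for `Unit.H₂ D1` at the points of `Unit.modNodes D1`.
-/
import Mathlib
import Fermat.Agent.S36lib.Count.OrdFibre
import Fermat.Agent.S36lib.Count.ModSq

set_option autoImplicit false
set_option linter.style.haveILetI false
set_option linter.unusedSectionVars false

noncomputable section

namespace Fermat.Agent.S36lib.Count

open AlgebraicCurve ModularCurve IntermediateField Polynomial Module
open Fermat.Agent.ProgramR Fermat.Agent.S18lib Fermat.Agent.S28lib Fermat.Agent.LSb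

local notation "Qb" => AlgebraicClosure ℚ

variable {M : ℕ} [NeZero M] {A : ValuationSubring (AlgebraicClosure ℚ)}

local notation "kA" => IsLocalRing.ResidueField A

/-! ### `q ≥ 5` -/

section FiveLe

variable {q : ℕ} [Fact q.Prime]

/-- **`a_c = 12`, `q ≥ 5`**: at an elliptic-free level every zero of `h = Δ̄^(1-q)` at which `j̄` is
regular has order exactly `12`. -/
theorem ord_eq_twelve_five_le (h5 : 5 ≤ q) (hqM : ¬ q ∣ M) (hA : A.LiesOverPrime q)
    (h2 : nuTwo M = 0) (h3 : nuThree M = 0) (h : FRes A M)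
    (hh : ((h : FRes A M) : LaurentSeries (kRes A)) * DeltaQ (kRes A) ^ (q - 1) = 1)
    (v : Place (kRes A) (FRes A M)) (hj : Gink.jK A M ∈ v.toValuationSubring)
    (hv : 0 < v.ord h) : v.ord h = 12 := by
  classical
  obtain ⟨m, d, e, hmde, hd, he⟩ := LSb.Count.exists_mde (q := q) h5
  have hd1 : d ≤ 1 := by rw [hd]; split_ifs <;> omega
  have he1 : e ≤ 1 := by rw [he]; split_ifs <;> omega
  obtain ⟨b, hmon, -, hb0, hb1, hbsq, hhb⟩ :=
    LSb.Count.exists_poly_of_mul_DeltaQ M A hA h5 hmde hd1 he1 h hh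
  -- the value of `j̄` at `v`
  have hx : Transcendental (kRes A) (Gink.jK A M) := Gink.transcendental_jK A M
  have hin := S37lib.B3.reductionInputsModL M A hqM hA
  obtain ⟨g', -, hFk⟩ := G.exists_genus_of_five_le M A hqM hA hin h5
  obtain ⟨a, ha⟩ := exists_hasValueAt (hFk.deg_eq_one v)
    ((Tame.adicValuation_le_one_iff_mem v _).2 hj)
  have hpos : 0 < v.ord (Gink.jK A M - algebraMap (kRes A) (FRes A M) a) := by
    rcases hasValueAt_iff.1 ha with h0 | h0
    · exact absurd (h0 ▸ isAlgebraic_algebraMap a) hx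
    · exact h0
  have h1728 : (1728 : kRes A) ≠ 0 := LSb.Count.ofNat_1728_ne_zero A hA h5
  have e1728 : algebraMap (kRes A) (FRes A M) 1728 = 1728 := map_ofNat _ _
  -- the three factors
  have hjne : Gink.jK A M ≠ 0 := fun h0 => hx (h0 ▸ isAlgebraic_zero)
  have hj1ne : Gink.jK A M - algebraMap (kRes A) (FRes A M) 1728 ≠ 0 := fun h0 =>
    hx (sub_eq_zero.mp h0 ▸ isAlgebraic_algebraMap _)
  have hbne : aeval (Gink.jK A M) b ≠ 0 := by
    intro h0
    exact hmon.ne_zero ((transcendental_iff.mp hx) b h0)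
  have hord : v.ord h = 4 * d * v.ord (Gink.jK A M) +
      6 * e * v.ord (Gink.jK A M - algebraMap (kRes A) (FRes A M) 1728) +
      12 * ((b.rootMultiplicity a : ℤ) *
        v.ord (Gink.jK A M - algebraMap (kRes A) (FRes A M) a)) := by
    rw [hhb, map_mul, map_mul, map_pow, map_pow, map_pow, map_sub, aeval_X, aeval_C,
      v.ord_mul (mul_ne_zero (pow_ne_zero _ hjne) (pow_ne_zero _ hj1ne)) (pow_ne_zero _ hbne),
      v.ord_mul (pow_ne_zero _ hjne) (pow_ne_zero _ hj1ne), Cech.ord_pow, Cech.ord_pow,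
      Cech.ord_pow, ord_aeval_eq hpos hmon.ne_zero]
    push_cast
    ring
  rw [hord] at hv ⊢
  by_cases ha0 : a = 0
  · -- `j̄(v) = 0`
    subst ha0
    have e0 : v.ord (Gink.jK A M) = 3 := by
      have := hpos
      rw [map_zero, sub_zero] at this
      exact ord_jK_eq_three M A hqM hA h5 h3 v this
    have e1 : v.ord (Gink.jK A M - algebraMap (kRes A) (FRes A M) 1728) = 0 :=
      ord_sub_const_eq_zero hpos h1728
    have e2 : b.rootMultiplicity 0 = 0 := rootMultiplicity_eq_zero hb0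
    rw [e0, e1, e2] at hv ⊢
    push_cast at hv ⊢
    have hd' : d = 1 := by omega
    rw [hd']
    norm_num
  · by_cases ha1 : a = 1728
    · -- `j̄(v) = 1728`
      subst ha1
      have e0 : v.ord (Gink.jK A M) = 0 := by
        have := ord_sub_const_eq_zero hpos (Ne.symm h1728)
        rwa [map_zero, sub_zero] at this
      have e1 : v.ord (Gink.jK A M - algebraMap (kRes A) (FRes A M) 1728) = 2 :=
        ord_jK_sub_eq_two M A hqM hA h5 h2 v hpos
      have e2 : b.rootMultiplicity 1728 = 0 := rootMultiplicity_eq_zero hb1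
      rw [e0, e1, e2] at hv ⊢
      push_cast at hv ⊢
      have he' : e = 1 := by omega
      rw [he']
      norm_num
    · -- generic value
      have e0 : v.ord (Gink.jK A M) = 0 := by
        have := ord_sub_const_eq_zero hpos (Ne.symm ha0)
        rwa [map_zero, sub_zero] at this
      have e1 : v.ord (Gink.jK A M - algebraMap (kRes A) (FRes A M) 1728) = 0 :=
        ord_sub_const_eq_zero hpos (Ne.symm ha1)
      have e2 : v.ord (Gink.jK A M - algebraMap (kRes A) (FRes A M) a) = 1 :=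
        ord_jK_sub_eq_one M A hqM hA h5 a ha0 ha1 v hpos
      have e3 : b.rootMultiplicity a ≤ 1 := by
        by_contra hlt
        push Not at hlt
        exact hbsq a ((le_rootMultiplicity_iff hmon.ne_zero).mp hlt)
      rw [e0, e1, e2] at hv ⊢
      have e4 : b.rootMultiplicity a = 1 := by
        rcases Nat.le_one_iff_eq_zero_or_eq_one.mp e3 with h0 | h0
        · rw [h0] at hv
          simp at hv
        · exact h0
      rw [e4]
      norm_num

variable [NeZero q]

/-- **`a_c = 12`, `q ≥ 5`, modular shape**: `ord H₂ = 12` at every node. -/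
theorem ord_H₂_eq_twelve_five_le (h5 : 5 ≤ q) (hqM : ¬ q ∣ M) (hA : A.LiesOverPrime q)
    (h2 : nuTwo M = 0) (h3 : nuThree M = 0)
    {D1 : GaussDatum A (FBar (M * q)) (FRes A M)} (h1 : Old.IsGaussOne D1)
    {x' : Place kA (FRes A M)} (hx' : x' ∈ Unit.modNodes D1) :
    x'.ord (Unit.H₂ D1) = 12 := by
  rw [Unit.modNodes, Unit.mem_nodeSet] at hx'
  refine ord_eq_twelve_five_le h5 hqM hA h2 h3 (Unit.H₂ D1) (Unit.coe_H₂_mul hA h1) x' hx'.1 ?_
  exact ((LSb.adicValuation_lt_one_iff (Q := x')).1 hx'.2).resolve_left (Unit.H₂_ne_zero h1)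

end FiveLe

/-! ### `q = 2`, `9 ∣ M` -/

section Two

variable (h9 : 9 ∣ M) (h2M : ¬ 2 ∣ M) (hA : A.LiesOverPrime 2)
variable {D1 : GaussDatum A (FBar (M * 2)) (FRes A M)} (h1 : Old.IsGaussOne D1)

include h9 h2M hA h1 in
/-- **`a_c = 12`, `q = 2`, `9 ∣ M`**: `ord H₂ = 12` at every node. -/
theorem ord_H₂_eq_twelve_two {x' : Place kA (FRes A M)} (hx' : x' ∈ Unit.modNodes D1) :
    x'.ord (Unit.H₂ D1) = 12 := by
  haveI : Fact (Nat.Prime 2) := ⟨Nat.prime_two⟩
  haveI : CharP kA 2 := Old.charP_kRes hA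
  have hx'' := hx'
  rw [Count23.modNodes_eq_two h9 h2M hA h1, Tame.mem_zerosOf] at hx''
  rw [Count23.H₂_eq_jK_two hA h1]
  set μ := Haupt.mu9K M hA h2M h9 with hμdef
  have hμ1 : x'.ord (μ + 1) = 1 := Mod23.ord_mu9K_add_one M A rfl h2M hA h9 x' hx''
  have hrel := Haupt.jK_mul_mu9K_two M hA h2M rfl h9
  rw [← hμdef] at hrel
  -- `μ` has the value `-1` at `x'`
  have hval : HasValueAt x' μ (-1) := by
    rw [hasValueAt_iff]
    right
    rw [map_neg, map_one, sub_neg_eq_add]
    exact hx''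
  have hone : (-1 : kA) ^ 9 * ((-1) ^ 2 + (-1) + 1) ≠ 0 := by
    have : (-1 : kA) ^ 9 * ((-1) ^ 2 + (-1) + 1) = -1 := by ring
    rw [this]
    exact neg_ne_zero.mpr one_ne_zero
  have hval2 : HasValueAt x' (μ ^ 9 * (μ ^ 2 + μ + 1)) ((-1) ^ 9 * ((-1) ^ 2 + (-1) + 1)) :=
    (hval.pow 9).mul (((hval.pow 2).add hval).add hasValueAt_one)
  have h0 := hval2.ord_eq_zero hone
  have hne := hval2.ne_zero hone
  have hx : Transcendental kA (Gink.jK A M) := Gink.transcendental_jK A M
  have hjne : Gink.jK A M ≠ 0 := fun h0 => hx (h0 ▸ isAlgebraic_zero)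
  have := congrArg x'.ord hrel
  rw [x'.ord_mul hjne hne, h0, add_zero, Cech.ord_pow, hμ1] at this
  rw [this]
  norm_num

end Two

/-! ### `q = 3`, `4 ∣ M` -/

section Three

variable (h4 : 4 ∣ M) (h3M : ¬ 3 ∣ M) (hA : A.LiesOverPrime 3)
variable {D1 : GaussDatum A (FBar (M * 3)) (FRes A M)} (h1 : Old.IsGaussOne D1)

include h4 h3M hA h1 in
/-- **`a_c = 12`, `q = 3`, `4 ∣ M`**: `ord H₂ = 12` at every node. -/
theorem ord_H₂_eq_twelve_three {x' : Place kA (FRes A M)} (hx' : x' ∈ Unit.modNodes D1) :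
    x'.ord (Unit.H₂ D1) = 12 := by
  haveI : Fact (Nat.Prime 3) := ⟨Nat.prime_three⟩
  haveI : CharP kA 3 := Old.charP_kRes hA
  have hx'' := hx'
  rw [Count23.modNodes_eq_three h4 h3M hA h1, Tame.mem_zerosOf] at hx''
  rw [Count23.H₂_eq_jK_sq_three hA h1]
  set μ := Haupt.mu4K M hA h3M h4 with hμdef
  have hμ1 : x'.ord (μ - 1) = 1 := Mod23.ord_mu4K_sub_one M A rfl h3M hA h4 x' hx''
  have hrel := Haupt.jK_mul_mu4K_three M hA h3M rfl h4
  rw [← hμdef] at hrel
  -- `μ` has the value `1` at `x'`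
  have hval : HasValueAt x' μ 1 := by
    rw [hasValueAt_iff]
    right
    rw [map_one]
    exact hx''
  have h2ne : (2 : kA) ≠ 0 := by
    intro h
    have h' : ((2 : ℕ) : kA) = 0 := by exact_mod_cast h
    rw [CharP.cast_eq_zero_iff kA 3] at h'
    omega
  have hone : (1 : kA) ^ 4 * (1 + 1) ≠ 0 := by
    have : (1 : kA) ^ 4 * (1 + 1) = 2 := by ring
    rw [this]
    exact h2ne
  have hval2 : HasValueAt x' (μ ^ 4 * (μ + 1)) (1 ^ 4 * (1 + 1)) :=
    (hval.pow 4).mul (hval.add hasValueAt_one)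
  have h0 := hval2.ord_eq_zero hone
  have hne := hval2.ne_zero hone
  have hx : Transcendental kA (Gink.jK A M) := Gink.transcendental_jK A M
  have hjne : Gink.jK A M ≠ 0 := fun h0 => hx (h0 ▸ isAlgebraic_zero)
  have := congrArg x'.ord hrel
  rw [x'.ord_mul hjne hne, h0, add_zero, Cech.ord_pow, hμ1] at this
  rw [Cech.ord_pow, this]
  norm_num

end Three

end Fermat.Agent.S36lib.Count
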