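/-
S36lib / Count / FrobNodes  (helper5)

The node set of the modular datum is Frobenius-stable: `V_q H₂ = H₂ ^ q` (the `t`-expansion
`Δ̄(t)/Δ̄(t^q)` of `H₂` has coefficients in the prime field), hence the Frobenius image
`x₁ c = frobPlace (x₂ c)` of a node is again a node (`modX₁_mem`), and `ord_{x₁ c} H₂ = 12` as well.
-/
import Mathlib
import Fermat.Agent.S36lib.Count.OrdTwelve

set_option autoImplicit false
set_option linter.style.haveILetI false
set_option linter.unusedSectionVars false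

noncomputable section

namespace Fermat.Agent.S36lib.Count

open AlgebraicCurve ModularCurve HahnSeries
open Fermat.Agent.ProgramR Fermat.Agent.S18lib Fermat.Agent.S28lib Fermat.Agent.LSb

local notation "Qb" => AlgebraicClosure ℚ

variable {M q : ℕ} [NeZero M] [NeZero q] [hq : Fact q.Prime]
variable {A : ValuationSubring (AlgebraicClosure ℚ)}

local notation "kA" => IsLocalRing.ResidueField A

/-- `V_q H₂ = H₂ ^ q` -/
theorem VqR_H₂ (hA : A.LiesOverPrime q) {D1 : GaussDatum A (FBar (M * q)) (FRes A M)}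
    (h1 : Old.IsGaussOne D1) : Unit.VqR hA (Unit.H₂ D1) = Unit.H₂ D1 ^ q := by
  have := Old.charP_kRes hA
  apply Subtype.ext
  show qExpand kA q ((Unit.H₂ D1 : FRes A M) : LaurentSeries kA) = _
  rw [SubmonoidClass.coe_pow, Unit.coe_H₂ h1, S37lib.ConjNorm.pow_char_eq_qExpand q,
    Unit.coeffMap_X0]

/-- the node set is stable under the Frobenius image of places -/
theorem frobPlace_mem_modNodes (hA : A.LiesOverPrime q)
    {D1 : GaussDatum A (FBar (M * q)) (FRes A M)} (h1 : Old.IsGaussOne D1)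
    {x' : Place kA (FRes A M)} (hx' : x' ∈ Unit.modNodes D1)
    (h : x'.toValuationSubring.comap (Unit.VqR (M := M) hA) ≠ ⊤) :
    Unit.frobPlace (Unit.VqR hA) (Unit.VqR_algebraMap hA) x' h ∈ Unit.modNodes D1 := by
  rw [Unit.modNodes, Unit.mem_nodeSet] at hx' ⊢
  constructor
  · rw [Unit.mem_frobPlace_iff, Unit.VqR_jK hA]
    exact pow_mem hx'.1 q
  · rw [Unit.adicValuation_frobPlace_lt_one_iff, VqR_H₂ hA h1, map_pow]
    exact pow_lt_one₀ zero_le hx'.2 (NeZero.ne q)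

/-- the nodes on the second component are nodes (no instance arguments) -/
theorem modX₂_mem' {D1 : GaussDatum A (FBar (M * q)) (FRes A M)} (c : Fin (Unit.modS D1)) :
    Unit.modX₂ D1 c ∈ Unit.modNodes D1 :=
  Unit.nodeEnum_mem (K := kA) (Gink.jK A M) (Unit.H₂ D1) c

/-- the nodes on the first component are nodes -/
theorem modX₁_mem (hA : A.LiesOverPrime q) {D1 : GaussDatum A (FBar (M * q)) (FRes A M)}
    (h1 : Old.IsGaussOne D1) (c : Fin (Unit.modS D1)) :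
    Unit.modX₁ hA D1 c ∈ Unit.modNodes D1 :=
  frobPlace_mem_modNodes hA h1 (modX₂_mem' c) _

/-- **`a_c = 12` at the nodes `x₁ c`, `x₂ c`; `q ≥ 5`, elliptic-free `M`** -/
theorem ord_H₂_modX_five_le (h5 : 5 ≤ q) (hqM : ¬ q ∣ M) (hA : A.LiesOverPrime q)
    (h2 : nuTwo M = 0) (h3 : nuThree M = 0)
    {D1 : GaussDatum A (FBar (M * q)) (FRes A M)} (h1 : Old.IsGaussOne D1)
    (c : Fin (Unit.modS D1)) :
    (Unit.modX₁ hA D1 c).ord (Unit.H₂ D1) = 12 ∧ (Unit.modX₂ D1 c).ord (Unit.H₂ D1) = 12 :=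
  ⟨ord_H₂_eq_twelve_five_le h5 hqM hA h2 h3 h1 (modX₁_mem hA h1 c),
    ord_H₂_eq_twelve_five_le h5 hqM hA h2 h3 h1 (modX₂_mem' c)⟩

end Fermat.Agent.S36lib.Count

namespace Fermat.Agent.S36lib.Count

open AlgebraicCurve ModularCurve
open Fermat.Agent.S18lib Fermat.Agent.LSb

variable {M : ℕ} [NeZero M] {A : ValuationSubring (AlgebraicClosure ℚ)}

/-- **`a_c = 12` at the nodes `x₁ c`, `x₂ c`; `q = 2`, `9 ∣ M`** -/
theorem ord_H₂_modX_two (h9 : 9 ∣ M) (h2M : ¬ 2 ∣ M) (hA : A.LiesOverPrime 2)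
    {D1 : GaussDatum A (FBar (M * 2)) (FRes A M)} (h1 : Old.IsGaussOne D1) :
    haveI : Fact (Nat.Prime 2) := ⟨Nat.prime_two⟩
    ∀ c : Fin (Unit.modS D1),
    (Unit.modX₁ hA D1 c).ord (Unit.H₂ D1) = 12 ∧ (Unit.modX₂ D1 c).ord (Unit.H₂ D1) = 12 := by
  haveI : Fact (Nat.Prime 2) := ⟨Nat.prime_two⟩
  exact fun c => ⟨ord_H₂_eq_twelve_two h9 h2M hA h1 (modX₁_mem hA h1 c),
    ord_H₂_eq_twelve_two h9 h2M hA h1 (modX₂_mem' c)⟩

/-- **`a_c = 12` at the nodes `x₁ c`, `x₂ c`; `q = 3`, `4 ∣ M`** -/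
theorem ord_H₂_modX_three (h4 : 4 ∣ M) (h3M : ¬ 3 ∣ M) (hA : A.LiesOverPrime 3)
    {D1 : GaussDatum A (FBar (M * 3)) (FRes A M)} (h1 : Old.IsGaussOne D1) :
    haveI : Fact (Nat.Prime 3) := ⟨Nat.prime_three⟩
    ∀ c : Fin (Unit.modS D1),
    (Unit.modX₁ hA D1 c).ord (Unit.H₂ D1) = 12 ∧ (Unit.modX₂ D1 c).ord (Unit.H₂ D1) = 12 := by
  haveI : Fact (Nat.Prime 3) := ⟨Nat.prime_three⟩
  exact fun c => ⟨ord_H₂_eq_twelve_three h4 h3M hA h1 (modX₁_mem hA h1 c),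
    ord_H₂_eq_twelve_three h4 h3M hA h1 (modX₂_mem' c)⟩

end Fermat.Agent.S36lib.Count
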