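/-
S36lib / Count / OrdGen  (helper5)

General lemmas on orders of zeros in a function field `F/K` (all places of degree one):
* `degree_zeroDiv_eq_sum_ord` : `deg (f)₀ = ∑_{v zero of f} ord_v f`;
* `ord_eq_of_le_ord`, `ord_eq_of_ord_le` : if all zeros of `f` have order `≥ n` (resp. `≤ n`) and
  `n · #Z(f) = deg (f)₀` then all zeros have order exactly `n`;
* `ord_aeval_eq` : `ord_v P(J) = mult_a(P) · ord_v (J - a)` when `J(v) = a`;
* `ord_sub_const_eq_zero` : `ord_v (J - c) = 0` when `J(v) = a ≠ c`.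
-/
import Mathlib
import Fermat.Agent.S18lib.Tame.Count
import Fermat.Agent.LSb.Unit.NodePos

set_option autoImplicit false
set_option linter.unusedSectionVars false

noncomputable section

namespace Fermat.Agent.S36lib.Count

open AlgebraicCurve Polynomial Fermat.Agent.S18lib Fermat.Agent.LSb

section Degree

variable {K F : Type*} [Field K] [Field F] [Algebra K F] [HasPrincipalDivisors K F]

/-- `deg (f)₀ = ∑ ord_v f` over the zeros of `f` (all places of degree one) -/
theorem degree_zeroDiv_eq_sum_ord (hdeg : ∀ v : Place K F, v.deg = 1) (f : F) :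
    Divisor.degree (Tame.zeroDiv (K := K) f) =
      ∑ v ∈ (Tame.zeroDiv (K := K) f).support, v.ord f := by
  classical
  have h1 : Divisor.degree (Tame.zeroDiv (K := K) f) =
      ∑ v ∈ (Tame.zeroDiv (K := K) f).support, (Tame.zeroDiv (K := K) f) v * (v.deg : ℤ) := by
    rw [Divisor.degree, Finsupp.liftAddHom_apply, Finsupp.sum]
    rfl
  rw [h1]
  refine Finset.sum_congr rfl fun v hv => ?_
  rw [Tame.mem_support_zeroDiv] at hv
  rw [Tame.zeroDiv_apply, max_eq_left hv.le, hdeg v]
  simp

theorem card_zerosOf_eq_card_support (f : F) :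
    Nat.card (Tame.zerosOf (K := K) f) = (Tame.zeroDiv (K := K) f).support.card := by
  classical
  rw [Tame.zerosOf_eq_support, Nat.card_coe_set_eq, Set.ncard_coe_finset]

/-- all zeros of order `≥ n` and `n · #Z(f) = deg (f)₀` ⇒ all zeros of order `n` -/
theorem ord_eq_of_le_ord (hdeg : ∀ v : Place K F, v.deg = 1) {f : F} {n : ℤ}
    (hge : ∀ v : Place K F, 0 < v.ord f → n ≤ v.ord f)
    (hcard : n * (Nat.card (Tame.zerosOf (K := K) f) : ℤ) =
      Divisor.degree (Tame.zeroDiv (K := K) f)) :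
    ∀ v : Place K F, 0 < v.ord f → v.ord f = n := by
  classical
  rw [degree_zeroDiv_eq_sum_ord hdeg, card_zerosOf_eq_card_support, Finset.card_eq_sum_ones,
    Nat.cast_sum, Finset.mul_sum] at hcard
  have h0 : ∑ v ∈ (Tame.zeroDiv (K := K) f).support, (v.ord f - n) = 0 := by
    rw [Finset.sum_sub_distrib, ← hcard]
    simp
  have hz := (Finset.sum_eq_zero_iff_of_nonneg (fun v hv =>
    sub_nonneg.mpr (hge v (Tame.mem_support_zeroDiv.mp hv)))).mp h0
  intro v hv
  have := hz v (Tame.mem_support_zeroDiv.mpr hv)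
  omega

/-- all zeros of order `≤ n` and `n · #Z(f) = deg (f)₀` ⇒ all zeros of order `n` -/
theorem ord_eq_of_ord_le (hdeg : ∀ v : Place K F, v.deg = 1) {f : F} {n : ℤ}
    (hle : ∀ v : Place K F, 0 < v.ord f → v.ord f ≤ n)
    (hcard : n * (Nat.card (Tame.zerosOf (K := K) f) : ℤ) =
      Divisor.degree (Tame.zeroDiv (K := K) f)) :
    ∀ v : Place K F, 0 < v.ord f → v.ord f = n := by
  classical
  rw [degree_zeroDiv_eq_sum_ord hdeg, card_zerosOf_eq_card_support, Finset.card_eq_sum_ones,
    Nat.cast_sum, Finset.mul_sum] at hcard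
  have h0 : ∑ v ∈ (Tame.zeroDiv (K := K) f).support, (n - v.ord f) = 0 := by
    rw [Finset.sum_sub_distrib, ← hcard]
    simp
  have hz := (Finset.sum_eq_zero_iff_of_nonneg (fun v hv =>
    sub_nonneg.mpr (hle v (Tame.mem_support_zeroDiv.mp hv)))).mp h0
  intro v hv
  have := hz v (Tame.mem_support_zeroDiv.mpr hv)
  omega

end Degree

section Value

variable {K F : Type*} [Field K] [Field F] [Algebra K F]

/-- `ord_v (J - c) = 0` when `J` has the value `a ≠ c` at `v` -/
theorem ord_sub_const_eq_zero {v : Place K F} {J : F} {a c : K}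
    (hJ : 0 < v.ord (J - algebraMap K F a)) (hc : c ≠ a) :
    v.ord (J - algebraMap K F c) = 0 := by
  have h1 : HasValueAt v J a := hasValueAt_iff.2 (Or.inr hJ)
  have h2 : HasValueAt v (J - algebraMap K F c) (a - c) := h1.sub (hasValueAt_const c)
  exact h2.ord_eq_zero (sub_ne_zero.mpr (Ne.symm hc))

/-- `ord_v P(J) = mult_a(P) · ord_v (J - a)` when `J` has the value `a` at `v` -/
theorem ord_aeval_eq {v : Place K F} {J : F} {a : K}
    (hJ : 0 < v.ord (J - algebraMap K F a)) {P : K[X]} (hP : P ≠ 0) :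
    v.ord (aeval J P) = (P.rootMultiplicity a : ℤ) * v.ord (J - algebraMap K F a) := by
  obtain ⟨Q, hPQ, hQ⟩ := exists_eq_pow_rootMultiplicity_mul_and_not_dvd P hP a
  have hQa : Q.eval a ≠ 0 := fun h => hQ (dvd_iff_isRoot.mpr h)
  have h1 : HasValueAt v J a := hasValueAt_iff.2 (Or.inr hJ)
  have h2 : HasValueAt v (aeval J Q) (Q.eval a) := Unit.HasValueAt.aeval h1 Q
  have hJne : J - algebraMap K F a ≠ 0 := by
    intro h0
    rw [h0, Place.ord_zero] at hJ
    exact lt_irrefl _ hJ
  have e : aeval J P = (J - algebraMap K F a) ^ P.rootMultiplicity a * aeval J Q := by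
    conv_lhs => rw [hPQ]
    rw [map_mul, map_pow, map_sub, aeval_X, aeval_C]
  rw [e, v.ord_mul (pow_ne_zero _ hJne) (h2.ne_zero hQa), Cech.ord_pow, h2.ord_eq_zero hQa,
    add_zero]

end Value

end Fermat.Agent.S36lib.Count
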